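import Fermat.Agent.FrobDensity.Rep
import Fermat.Agent.Frob.GaloisRepTrace
import Mathlib.FieldTheory.IntermediateField.Algebraic
import Mathlib.RingTheory.DiscreteValuationRing.Basic

/-!
Approximation of the traces of several Galois representations simultaneously by the images of an
element of a ring of coefficients.
-/

set_option autoImplicit false

open Polynomial IsLocalRing

namespace Fermat.Agent.HeckeGal

/-- Divisibility descends along injective local homomorphisms out of a valuation ring. -/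
theorem dvd_of_algebraMap_dvd {O O' : Type*} [CommRing O] [IsDomain O] [ValuationRing O]
    [CommRing O'] [IsDomain O'] (φ : O →+* O') (hφ : Function.Injective φ) [IsLocalHom φ]
    {c x : O} (h : φ c ∣ φ x) : c ∣ x := by
  rcases ValuationRing.dvd_total c x with h1 | ⟨u, hu⟩
  · exact h1
  · rcases eq_or_ne x 0 with rfl | hx
    · exact dvd_zero c
    · obtain ⟨y, hy⟩ := h
      have h2 : φ u * y = 1 := by
        have h3 : φ x * (φ u * y) = φ x * 1 := by
          rw [← mul_assoc, ← map_mul, ← hu, ← hy, mul_one]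
        exact mul_left_cancel₀ ((map_ne_zero_iff φ hφ).2 hx) h3
      have h4 : IsUnit u := isUnit_of_map_unit φ u (IsUnit.of_mul_eq_one _ h2)
      rw [hu]
      obtain ⟨v, rfl⟩ := h4
      exact ⟨((v⁻¹ : Oˣ) : O), by simp [mul_assoc]⟩

/-- The sequence of traces of powers. -/
def lucas {R : Type*} [CommRing R] (t d : R) : ℕ → R
  | 0 => 2
  | 1 => t
  | n + 2 => t * lucas t d (n + 1) - d * lucas t d n

theorem map_lucas {R R' : Type*} [CommRing R] [CommRing R'] (φ : R →+* R') (t d : R) (n : ℕ) :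
    φ (lucas t d n) = lucas (φ t) (φ d) n := by
  have key : ∀ n : ℕ, φ (lucas t d n) = lucas (φ t) (φ d) n ∧
      φ (lucas t d (n + 1)) = lucas (φ t) (φ d) (n + 1) := by
    intro n
    induction n with
    | zero => exact ⟨by simp only [lucas]; exact map_ofNat φ 2, rfl⟩
    | succ n ih =>
      refine ⟨ih.2, ?_⟩
      rw [lucas, lucas, map_sub, map_mul, map_mul, ih.1, ih.2]
  exact (key n).1

theorem trace_pow_eq_lucas {A V : Type*} [CommRing A] [Nontrivial A] [AddCommGroup V] [Module A V]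
    [Module.Free A V] [Module.Finite A V] (hV : Module.finrank A V = 2) (f : Module.End A V)
    {t d : A} (h : LinearMap.charpoly f = X ^ 2 - C t * X + C d) (n : ℕ) :
    LinearMap.trace A V (f ^ n) = lucas t d n := by
  have h0 := h
  rw [FrobDensity.charpoly_eq_of_finrank hV f] at h0
  obtain ⟨ht, hd⟩ := FrobDensity.eq_of_charpoly_eq h0
  have h1 := LinearMap.aeval_self_charpoly f
  rw [h] at h1
  simp only [map_add, map_sub, map_mul, map_pow, aeval_X, aeval_C] at h1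
  have hrec : ∀ n : ℕ, LinearMap.trace A V (f ^ (n + 2)) =
      t * LinearMap.trace A V (f ^ (n + 1)) - d * LinearMap.trace A V (f ^ n) := by
    intro n
    have h2 : f ^ (n + 2) = t • f ^ (n + 1) - d • f ^ n := by
      have h3 := congrArg (fun x => f ^ n * x) h1
      simp only [mul_zero, mul_add, mul_sub, Algebra.algebraMap_eq_smul_one, smul_mul_assoc,
        one_mul, mul_smul_comm, mul_one] at h3
      rw [sub_add, sub_eq_zero] at h3
      rw [pow_add, pow_succ]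
      exact h3
    rw [h2, map_sub, map_smul, map_smul, smul_eq_mul, smul_eq_mul]
  have key : ∀ n : ℕ, LinearMap.trace A V (f ^ n) = lucas t d n ∧
      LinearMap.trace A V (f ^ (n + 1)) = lucas t d (n + 1) := by
    intro n
    induction n with
    | zero =>
      refine ⟨?_, ?_⟩
      · rw [pow_zero, LinearMap.trace_one, hV]
        simp [lucas]
      · rw [zero_add, pow_one, ht]
        simp [lucas]
    | succ n ih => exact ⟨ih.2, by rw [hrec, ih.1, ih.2]; rfl⟩
  exact (key n).1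

section Rep

variable {B : Type} [CommRing B] [IsLocalRing B]

theorem sub_mem_of_forall_eq (ρ : GaloisRepAdic B) (n : ℕ)
    (L : IntermediateField ℚ (AlgebraicClosure ℚ))
    (hL : ∀ σ : AlgebraicClosure ℚ ≃ₐ[ℚ] AlgebraicClosure ℚ, (∀ x ∈ L, σ x = x) →
      ∀ v : ρ.V, ρ.ρ σ v - v ∈ (maximalIdeal B ^ n) • (⊤ : Submodule B ρ.V))
    (σ τ : AlgebraicClosure ℚ ≃ₐ[ℚ] AlgebraicClosure ℚ) (h : ∀ x ∈ L, τ x = σ x) (v : ρ.V) :
    ρ.ρ σ v - ρ.ρ τ v ∈ (maximalIdeal B ^ n) • (⊤ : Submodule B ρ.V) := by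
  have hfix : ∀ x ∈ L, (τ⁻¹ * σ) x = x := by
    intro x hx
    have := h x hx
    show τ⁻¹ (σ x) = x
    rw [← this]
    exact τ.symm_apply_apply x
  have h3 := hL _ hfix v
  have h4 : ρ.ρ σ v - ρ.ρ τ v = (ρ.ρ τ) (ρ.ρ (τ⁻¹ * σ) v - v) := by
    rw [map_sub, ← Module.End.mul_apply, ← map_mul, mul_inv_cancel_left]
  rw [h4]
  have h5 : (ρ.ρ τ) (ρ.ρ (τ⁻¹ * σ) v - v) ∈
      ((maximalIdeal B ^ n) • (⊤ : Submodule B ρ.V)).map (ρ.ρ τ) :=
    Submodule.mem_map_of_mem h3
  rw [Submodule.map_smul''] at h5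
  exact Submodule.smul_mono le_rfl le_top h5

theorem trace_sub_mem {A V : Type*} [CommRing A] [Nontrivial A] [AddCommGroup V] [Module A V]
    [Module.Free A V] [Module.Finite A V] (hV : Module.finrank A V = 2) (I : Ideal A)
    (f g : Module.End A V) (h : ∀ v, f v - g v ∈ I • (⊤ : Submodule A V)) :
    LinearMap.trace A V f - LinearMap.trace A V g ∈ I := by
  have h1 := FrobDensity.charpoly_map_eq I f g h
  rw [FrobDensity.charpoly_eq_of_finrank hV f, FrobDensity.charpoly_eq_of_finrank hV g] at h1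
  have h2 := congrArg (fun q : (A ⧸ I)[X] => q.coeff 1) h1
  simp [coeff_C] at h2
  exact Ideal.Quotient.eq.mp h2

/-- Approximation of the traces of an element of the Galois group by the Frobenius traces. -/
theorem exists_approx {A : Type*} [CommRing A] {ι : Type*} [Finite ι] (S : Finset ℕ)
    (T : ∀ ℓ : ℕ, ℓ.Prime → ℓ ∉ S → A) {B₀ : Type} [CommRing B₀] [IsLocalRing B₀]
    (ρ₀ : GaloisRepAdic B₀) (φ₀ : A →+* B₀) (n₀ : ℕ)
    (h₀ : ∀ (ℓ : ℕ) (hℓ : ℓ.Prime) (hℓS : ℓ ∉ S), ∀ P : ValuationSubring (AlgebraicClosure ℚ),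
      P.LiesOverPrime ℓ → ∀ τ : AlgebraicClosure ℚ ≃ₐ[ℚ] AlgebraicClosure ℚ,
        P.IsFrobeniusAt τ ℓ → LinearMap.charpoly (ρ₀.ρ τ) =
          X ^ 2 - C (φ₀ (T ℓ hℓ hℓS)) * X + C ((ℓ : B₀)))
    (B : ι → Type) [∀ i, CommRing (B i)] [∀ i, IsLocalRing (B i)]
    (ρ : ∀ i, GaloisRepAdic (B i)) (φ : ∀ i, A →+* B i) (n : ι → ℕ)
    (h : ∀ (i : ι) (ℓ : ℕ) (hℓ : ℓ.Prime) (hℓS : ℓ ∉ S),
      ∀ P : ValuationSubring (AlgebraicClosure ℚ),
      P.LiesOverPrime ℓ → ∀ τ : AlgebraicClosure ℚ ≃ₐ[ℚ] AlgebraicClosure ℚ,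
        P.IsFrobeniusAt τ ℓ → LinearMap.charpoly ((ρ i).ρ τ) =
          X ^ 2 - C (φ i (T ℓ hℓ hℓS)) * X + C ((ℓ : B i)))
    (σ : AlgebraicClosure ℚ ≃ₐ[ℚ] AlgebraicClosure ℚ) :
    ∃ t : A, LinearMap.trace B₀ ρ₀.V (ρ₀.ρ σ) - φ₀ t ∈ maximalIdeal B₀ ^ n₀ ∧
      ∀ i, LinearMap.trace (B i) (ρ i).V ((ρ i).ρ σ) - φ i t ∈ maximalIdeal (B i) ^ n i := by
  obtain ⟨L₀, hL₀, hL₀'⟩ := ρ₀.isAdicContinuous n₀
  have hex := fun i => (ρ i).isAdicContinuous (n i)
  choose L hL hL' using hex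
  have hfin : FiniteDimensional ℚ (⨆ i, L i : IntermediateField ℚ (AlgebraicClosure ℚ)) :=
    IntermediateField.finiteDimensional_iSup_of_finite
  have hfin' : FiniteDimensional ℚ
      (L₀ ⊔ (⨆ i, L i) : IntermediateField ℚ (AlgebraicClosure ℚ)) :=
    IntermediateField.finiteDimensional_sup _ _
  obtain ⟨ℓ, hℓ, hℓS, P, hP, -, τ, hτ, ⟨j, hj⟩, -⟩ :=
    FrobDensity.exists_frobenius_pow_eq (L₀ ⊔ (⨆ i, L i)) hfin' σ S
  refine ⟨lucas (T ℓ hℓ hℓS) (ℓ : A) j, ?_, fun i => ?_⟩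
  · rw [map_lucas, map_natCast, ← trace_pow_eq_lucas ρ₀.finrank_eq _ (h₀ ℓ hℓ hℓS P hP τ hτ),
      ← map_pow]
    refine trace_sub_mem ρ₀.finrank_eq _ _ _ ?_
    exact sub_mem_of_forall_eq ρ₀ n₀ L₀ hL₀' σ (τ ^ j) fun x hx => hj x (le_sup_left (b := ⨆ i, L i) hx)
  · rw [map_lucas, map_natCast,
      ← trace_pow_eq_lucas (ρ i).finrank_eq _ (h i ℓ hℓ hℓS P hP τ hτ), ← map_pow]
    refine trace_sub_mem (ρ i).finrank_eq _ _ _ ?_
    exact sub_mem_of_forall_eq (ρ i) (n i) (L i) (hL' i) σ (τ ^ j) fun x hx =>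
      hj x ((le_iSup L i).trans (le_sup_right (a := L₀)) hx)

end Rep

/-- In a discrete valuation ring of characteristic zero every power of a nonzero natural number
divides all elements of a large power of the maximal ideal. -/
theorem exists_pow_le_span {O : Type*} [CommRing O] [IsDomain O] [IsDiscreteValuationRing O]
    {c : O} (hc : c ≠ 0) : ∃ k : ℕ, ∀ x ∈ maximalIdeal O ^ k, c ∣ x := by
  obtain ⟨ϖ, hϖ⟩ := IsDiscreteValuationRing.exists_irreducible O
  have h1 : Ideal.span {c} ≠ (⊥ : Ideal O) := by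
    rw [Ne, Ideal.span_singleton_eq_bot]
    exact hc
  obtain ⟨k, hk⟩ := IsDiscreteValuationRing.ideal_eq_span_pow_irreducible h1 hϖ
  refine ⟨k, fun x hx => ?_⟩
  rw [hϖ.maximalIdeal_eq, Ideal.span_singleton_pow, ← hk, Ideal.mem_span_singleton] at hx
  exact hx

end Fermat.Agent.HeckeGal
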