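import Mathlib
import Fermat.Agent.QuadRep.DVRExt

/-!
Separating `p`-adic points of a reduced finite flat `ℤ`-algebra.
-/

set_option autoImplicit false

open scoped TensorProduct

namespace Fermat.Agent.HeckeGal

/-- A finite reduced algebra over a field of characteristic zero is formally unramified. -/
theorem formallyUnramified_of_isReduced (K A : Type) [Field K] [CharZero K] [CommRing A]
    [Algebra K A] [Module.Finite K A] [IsReduced A] : Algebra.FormallyUnramified K A := by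
  have : IsArtinianRing A := IsArtinianRing.of_finite K A
  let e' : A ≃ₐ[K] (∀ I : MaximalSpectrum A, A ⧸ I.asIdeal) :=
    (IsArtinianRing.equivPi A).restrictScalars K
  have : Algebra.FormallyUnramified K (∀ I : MaximalSpectrum A, A ⧸ I.asIdeal) := by
    rw [Algebra.FormallyUnramified.pi_iff]
    intro I
    let : Field (A ⧸ I.asIdeal) := Ideal.Quotient.field _
    have : Algebra.IsAlgebraic K (A ⧸ I.asIdeal) := Algebra.IsAlgebraic.of_finite K _
    exact Algebra.FormallyUnramified.of_isSeparable K (A ⧸ I.asIdeal)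
  exact Algebra.FormallyUnramified.of_equiv e'.symm

theorem exists_smul_eq_includeRight (A : Type) [CommRing A] (x : ℚ ⊗[ℤ] A) :
    ∃ n : ℤ, n ≠ 0 ∧ ∃ a : A, n • x = 1 ⊗ₜ[ℤ] a := by
  induction x using TensorProduct.induction_on with
  | zero => exact ⟨1, one_ne_zero, 0, by simp⟩
  | tmul q a =>
    refine ⟨q.den, by exact_mod_cast q.den_ne_zero, q.num • a, ?_⟩
    rw [TensorProduct.smul_tmul', TensorProduct.tmul_smul, TensorProduct.smul_tmul']
    congr 1
    rw [zsmul_eq_mul, zsmul_eq_mul, mul_one]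
    have := Rat.mul_den_eq_num q
    push_cast
    rw [mul_comm]
    exact this
  | add x y hx hy =>
    obtain ⟨n, hn, a, ha⟩ := hx
    obtain ⟨m, hm, b, hb⟩ := hy
    refine ⟨n * m, mul_ne_zero hn hm, m • a + n • b, ?_⟩
    rw [smul_add, mul_comm n m, mul_smul, ha, mul_comm m n, mul_smul, hb,
      TensorProduct.tmul_add, TensorProduct.tmul_smul, TensorProduct.tmul_smul]

theorem isReduced_rat_tensor (A : Type) [CommRing A] [IsAddTorsionFree A] [IsReduced A] :
    IsReduced (ℚ ⊗[ℤ] A) := by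
  have hinj : Function.Injective (Algebra.TensorProduct.includeRight : A →ₐ[ℤ] ℚ ⊗[ℤ] A) := by
    exact Algebra.TensorProduct.includeRight_injective (algebraMap ℤ ℚ).injective_int
  constructor
  rintro x ⟨k, hk⟩
  obtain ⟨n, hn, a, ha⟩ := exists_smul_eq_includeRight A x
  have h1 : (1 ⊗ₜ[ℤ] a : ℚ ⊗[ℤ] A) ^ k = 0 := by
    rw [← ha, smul_pow, hk, smul_zero]
  have h2 : a = 0 := by
    have h3 : (Algebra.TensorProduct.includeRight : A →ₐ[ℤ] ℚ ⊗[ℤ] A) (a ^ k) = 0 := by
      rw [map_pow]; exact h1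
    have h4 : a ^ k = 0 := hinj (by rw [h3, map_zero])
    exact IsNilpotent.eq_zero ⟨k, h4⟩
  rw [h2, TensorProduct.tmul_zero] at ha
  have : (n : ℚ) • x = 0 := by
    rw [Int.cast_smul_eq_zsmul, ha]
  exact (smul_eq_zero.1 this).resolve_left (by exact_mod_cast hn)

section Sep

variable (p : ℕ) [hp : Fact p.Prime]

/-- Separation: if `a` is highly divisible by `p` at all points, it is divisible by `p`. -/
theorem sep_aux {A : Type} [CommRing A] {κ : Type} [Finite κ] (b : Module.Basis κ ℤ A)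
    {ι : Type} [Finite ι] (L : ι → Type) [∀ i, Field (L i)] [∀ i, Algebra ℚ_[p] (L i)]
    [∀ i, FiniteDimensional ℚ_[p] (L i)] [∀ i, Algebra ℤ_[p] (L i)]
    [∀ i, IsScalarTower ℤ_[p] ℚ_[p] (L i)] (f : ∀ i, A →+* L i)
    (hlin : LinearIndependent ℚ_[p] (fun j => (fun i => f i (b j) : ∀ i, L i))) (n : ℕ) :
    ∃ m : ℕ, ∀ a : A, (∀ i, ∃ y : integralClosure ℤ_[p] (L i), f i a = (p : L i) ^ m * y) →
      (p : A) ^ n ∣ a := by
  classical
  have := Fintype.ofFinite κ
  have hfin : ∀ i, Module.Finite ℤ_[p] (integralClosure ℤ_[p] (L i)) := fun i =>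
    IsIntegralClosure.finite ℤ_[p] ℚ_[p] (L i) (integralClosure ℤ_[p] (L i))
  have hfinA : Module.Finite ℤ A := Module.Finite.of_basis b
  have hint : ∀ i a, IsIntegral ℤ_[p] (f i a) := fun i a =>
    ((Algebra.IsIntegral.isIntegral (R := ℤ) a).map (f i).toIntAlgHom).tower_top
  let P := ∀ i, integralClosure ℤ_[p] (L i)
  let g : A → P := fun a i => ⟨f i a, hint i a⟩
  let N : Submodule ℤ_[p] P := Submodule.span ℤ_[p] (Set.range fun j => g (b j))
  obtain ⟨k, hk⟩ := Ideal.exists_pow_inf_eq_pow_smul (Ideal.span {(p : ℤ_[p])}) N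
  refine ⟨n + k, fun a ha => ?_⟩
  have hsum : ∀ (c' : κ → ℤ_[p]) (i : ι), ((∑ j, c' j • g (b j) : P) i : L i) =
      ∑ j, algebraMap ℤ_[p] (L i) (c' j) * f i (b j) := by
    intro c' i
    rw [Finset.sum_apply, AddSubmonoidClass.coe_finsetSum]
    refine Finset.sum_congr rfl fun j _ => ?_
    change ((c' j • (g (b j) i) : integralClosure ℤ_[p] (L i)) : L i) = _
    rw [Subalgebra.coe_smul, Algebra.smul_def]
  have hga : g a = ∑ j, ((b.repr a j : ℤ) : ℤ_[p]) • g (b j) := by
    funext i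
    apply Subtype.ext
    have h1 : a = ∑ j, b.repr a j • b j := (b.sum_repr a).symm
    have h2 : f i a = ∑ j, ((b.repr a j : ℤ) : L i) * f i (b j) := by
      conv_lhs => rw [h1]
      rw [map_sum]
      refine Finset.sum_congr rfl fun j _ => ?_
      rw [zsmul_eq_mul, map_mul, map_intCast]
    rw [hsum (fun j => ((b.repr a j : ℤ) : ℤ_[p])) i]
    simp only [map_intCast]
    exact h2
  have hN : g a ∈ N := by
    rw [hga]
    exact Submodule.sum_mem _ fun j _ => Submodule.smul_mem _ _ (Submodule.subset_span ⟨j, rfl⟩)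
  have hI : g a ∈ (Ideal.span {(p : ℤ_[p])}) ^ (n + k) • (⊤ : Submodule ℤ_[p] P) := by
    choose y hy using ha
    have hy' : g a = ((p : ℤ_[p]) ^ (n + k)) • (y : P) := by
      funext i
      apply Subtype.ext
      change f i a = ((((p : ℤ_[p]) ^ (n + k)) • (y i) : integralClosure ℤ_[p] (L i)) : L i)
      rw [Subalgebra.coe_smul, Algebra.smul_def, map_pow, map_natCast]
      exact hy i
    rw [hy']
    refine Submodule.smul_mem_smul ?_ Submodule.mem_top
    exact Ideal.pow_mem_pow (Ideal.mem_span_singleton_self _) _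
  have h4 : g a ∈ (Ideal.span {(p : ℤ_[p])}) ^ (n + k - k) •
      ((Ideal.span {(p : ℤ_[p])}) ^ k • (⊤ : Submodule ℤ_[p] P) ⊓ N) := by
    rw [← hk (n + k) (Nat.le_add_left k n)]
    exact ⟨hI, hN⟩
  rw [Nat.add_sub_cancel] at h4
  have h5 : g a ∈ (Ideal.span {(p : ℤ_[p])}) ^ n • N :=
    Submodule.smul_mono le_rfl inf_le_right h4
  rw [Ideal.span_singleton_pow, Submodule.ideal_span_singleton_smul,
    Submodule.mem_smul_pointwise_iff_exists] at h5
  obtain ⟨z, hz, hza⟩ := h5
  obtain ⟨c, hc⟩ := (Submodule.mem_span_range_iff_exists_fun ℤ_[p]).1 hz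
  have h6 : ∀ j, ((b.repr a j : ℤ) : ℤ_[p]) = (p : ℤ_[p]) ^ n * c j := by
    rw [Fintype.linearIndependent_iff] at hlin
    have h7 := hlin (fun j => algebraMap ℤ_[p] ℚ_[p]
      (((b.repr a j : ℤ) : ℤ_[p]) - (p : ℤ_[p]) ^ n * c j)) ?_
    · intro j
      have h8 := h7 j
      rw [map_eq_zero_iff _ (IsFractionRing.injective ℤ_[p] ℚ_[p]), sub_eq_zero] at h8
      exact h8
    · have h9 : ∑ j, (((b.repr a j : ℤ) : ℤ_[p]) - (p : ℤ_[p]) ^ n * c j) • g (b j) = 0 := by
        simp only [sub_smul, mul_smul, Finset.sum_sub_distrib, ← Finset.smul_sum]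
        rw [← hga, hc, hza, sub_self]
      funext i
      have h10 := congrArg (fun x : P => (x i : L i)) h9
      rw [hsum (fun j => ((b.repr a j : ℤ) : ℤ_[p]) - (p : ℤ_[p]) ^ n * c j) i] at h10
      rw [Finset.sum_apply]
      refine Eq.trans ?_ h10
      refine Finset.sum_congr rfl fun j _ => ?_
      rw [Pi.smul_apply, Algebra.smul_def, ← IsScalarTower.algebraMap_apply ℤ_[p] ℚ_[p] (L i)]
  have h11 : ∀ j, ((p : ℤ) ^ n) ∣ b.repr a j := by
    intro j
    rw [← PadicInt.pow_p_dvd_int_iff]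
    exact ⟨c j, h6 j⟩
  choose d hd using h11
  refine ⟨∑ j, d j • b j, ?_⟩
  rw [Finset.mul_sum]
  conv_lhs => rw [← b.sum_repr a]
  refine Finset.sum_congr rfl fun j _ => ?_
  rw [hd j]
  simp [zsmul_eq_mul, mul_assoc]

end Sep

open IsLocalRing

/-- A `p`-adic point of `A`: a ring homomorphism to a complete discrete valuation ring of
characteristic zero with finite residue field of characteristic `p`. -/
structure PAdicPoint (p : ℕ) (A : Type) [CommRing A] : Type 1 where
  O : Type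
  [commRing : CommRing O]
  [isDomain : IsDomain O]
  [isDVR : IsDiscreteValuationRing O]
  [isAdicComplete : IsAdicComplete (maximalIdeal O) O]
  [finiteResidueField : Finite (ResidueField O)]
  [charZero : CharZero O]
  mem_maximalIdeal : (p : O) ∈ maximalIdeal O
  χ : A →+* O

attribute [instance] PAdicPoint.commRing PAdicPoint.isDomain PAdicPoint.isDVR
  PAdicPoint.isAdicComplete PAdicPoint.finiteResidueField PAdicPoint.charZero

theorem finite_residueField_padicInt (p : ℕ) [Fact p.Prime] : Finite (ResidueField ℤ_[p]) :=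
  Finite.of_equiv (ZMod p) (PadicInt.residueField (p := p)).symm.toEquiv

/-- The point attached to a homomorphism to a finite extension of `ℚ_p`. -/
theorem exists_pAdicPoint_of_field (p : ℕ) [hp : Fact p.Prime] (A : Type) [CommRing A]
    [Module.Finite ℤ A] (L : Type) [Field L] [Algebra ℚ_[p] L] [FiniteDimensional ℚ_[p] L]
    [Algebra ℤ_[p] L] [IsScalarTower ℤ_[p] ℚ_[p] L] (f : A →+* L) :
    ∃ pt : PAdicPoint p A, ∀ (m : ℕ) (a : A), (p : pt.O) ^ m ∣ pt.χ a →
      ∃ y : integralClosure ℤ_[p] L, f a = (p : L) ^ m * y := by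
  have := finite_residueField_padicInt p
  have hloc := QuadRep.isLocalRing_integralClosure ℤ_[p] ℚ_[p] L
  have hdvr := QuadRep.isDiscreteValuationRing_integralClosure ℤ_[p] ℚ_[p] L
  have hcomp := QuadRep.isAdicComplete_integralClosure ℤ_[p] ℚ_[p] L
  have hfin := QuadRep.finite_residueField_integralClosure ℤ_[p] ℚ_[p] L
  have hch := QuadRep.charZero_integralClosure ℤ_[p] ℚ_[p] L
  have hlochom := QuadRep.isLocalHom_integralClosure ℤ_[p] ℚ_[p] L
  have hint : ∀ a, IsIntegral ℤ_[p] (f a) := fun a =>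
    ((Algebra.IsIntegral.isIntegral (R := ℤ) a).map f.toIntAlgHom).tower_top
  have hpm : ((p : ℕ) : integralClosure ℤ_[p] L) ∈ maximalIdeal (integralClosure ℤ_[p] L) := by
    have h1 : (p : ℤ_[p]) ∈ maximalIdeal ℤ_[p] := by
      rw [PadicInt.maximalIdeal_eq_span_p]
      exact Ideal.mem_span_singleton_self _
    rw [mem_maximalIdeal, mem_nonunits_iff] at h1 ⊢
    intro h2
    refine h1 (hlochom.map_nonunit _ ?_)
    simpa using h2
  let pt : PAdicPoint p A :=
    { O := integralClosure ℤ_[p] L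
      isDVR := hdvr
      isAdicComplete := hcomp
      finiteResidueField := hfin
      charZero := hch
      mem_maximalIdeal := hpm
      χ := { toFun := fun a => ⟨f a, hint a⟩
             map_one' := by apply Subtype.ext; simp
             map_mul' := fun a b => by apply Subtype.ext; simp
             map_zero' := by apply Subtype.ext; simp
             map_add' := fun a b => by apply Subtype.ext; simp } }
  refine ⟨pt, fun m a h => ?_⟩
  obtain ⟨y, hy⟩ := h
  refine ⟨y, ?_⟩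
  have h2 : f a = (((p : integralClosure ℤ_[p] L) ^ m * y : integralClosure ℤ_[p] L) : L) :=
    congrArg (fun z : integralClosure ℤ_[p] L => (z : L)) hy
  exact h2.trans rfl

theorem exists_separating_points_aux (p : ℕ) [hp : Fact p.Prime] (A : Type) [CommRing A]
    [Module.Finite ℤ A] {κ : Type} [Finite κ] (b : Module.Basis κ ℤ A) (C : Type) [CommRing C]
    [Algebra ℚ_[p] C] [Module.Finite ℚ_[p] C] [IsReduced C] (f0 : A →+* C)
    (hf0 : LinearIndependent ℚ_[p] (fun j => f0 (b j))) :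
    ∃ (ι : Type) (_ : Finite ι) (pt : ι → PAdicPoint p A), ∀ n : ℕ, ∃ m : ℕ, ∀ a : A,
      (∀ i, (p : (pt i).O) ^ m ∣ (pt i).χ a) → (p : A) ^ n ∣ a := by
  classical
  have hCa : IsArtinianRing C := IsArtinianRing.of_finite ℚ_[p] C
  let e := (IsArtinianRing.equivPi C).restrictScalars ℚ_[p]
  let fld : ∀ I : MaximalSpectrum C, Field (C ⧸ I.asIdeal) := fun I => Ideal.Quotient.field _
  let alg : ∀ I : MaximalSpectrum C, Algebra ℤ_[p] (C ⧸ I.asIdeal) := fun I =>
    ((algebraMap ℚ_[p] (C ⧸ I.asIdeal)).comp (algebraMap ℤ_[p] ℚ_[p])).toAlgebra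
  have tow : ∀ I : MaximalSpectrum C, IsScalarTower ℤ_[p] ℚ_[p] (C ⧸ I.asIdeal) := fun I =>
    IsScalarTower.of_algebraMap_eq fun _ => rfl
  let f : ∀ I : MaximalSpectrum C, A →+* C ⧸ I.asIdeal := fun I => (Ideal.Quotient.mk _).comp f0
  have hlin : LinearIndependent ℚ_[p] (fun j => (fun I => f I (b j) :
      ∀ I : MaximalSpectrum C, C ⧸ I.asIdeal)) :=
    hf0.map' e.toLinearMap (LinearMap.ker_eq_bot.2 e.injective)
  have hpts := fun I : MaximalSpectrum C =>
    exists_pAdicPoint_of_field p A (C ⧸ I.asIdeal) (f I)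
  choose pt hpt using hpts
  refine ⟨MaximalSpectrum C, inferInstance, pt, fun n => ?_⟩
  obtain ⟨m, hm⟩ := sep_aux p b (fun I : MaximalSpectrum C => C ⧸ I.asIdeal) f hlin n
  exact ⟨m, fun a ha => hm a fun I => hpt I m a (ha I)⟩

theorem isReduced_of_formallyUnramified (K : Type) [Field K] (C : Type) [CommRing C]
    [Algebra K C] [Module.Finite K C] [Algebra.FormallyUnramified K C] : IsReduced C :=
  Algebra.FormallyUnramified.isReduced_of_field K C

/-- A reduced finite torsion-free `ℤ`-algebra has a finite separating family of `p`-adic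
points. -/
theorem exists_separating_points (p : ℕ) [hp : Fact p.Prime] (A : Type) [CommRing A]
    [Module.Finite ℤ A] [IsAddTorsionFree A] [IsReduced A] :
    ∃ (ι : Type) (_ : Finite ι) (pt : ι → PAdicPoint p A), ∀ n : ℕ, ∃ m : ℕ, ∀ a : A,
      (∀ i, (p : (pt i).O) ^ m ∣ (pt i).χ a) → (p : A) ^ n ∣ a := by
  classical
  have hB : IsReduced (ℚ ⊗[ℤ] A) := isReduced_rat_tensor A
  have hBu : Algebra.FormallyUnramified ℚ (ℚ ⊗[ℤ] A) := formallyUnramified_of_isReduced ℚ _
  have hCu : Algebra.FormallyUnramified ℚ_[p] (ℚ_[p] ⊗[ℚ] (ℚ ⊗[ℤ] A)) := inferInstance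
  have hC := isReduced_of_formallyUnramified ℚ_[p] (ℚ_[p] ⊗[ℚ] (ℚ ⊗[ℤ] A))
  have hfree : Module.Free ℤ A := inferInstance
  let b := Module.Free.chooseBasis ℤ A
  let b' := Algebra.TensorProduct.basis ℚ b
  let b'' := Algebra.TensorProduct.basis ℚ_[p] b'
  refine exists_separating_points_aux p A b (ℚ_[p] ⊗[ℚ] (ℚ ⊗[ℤ] A))
    ((Algebra.TensorProduct.includeRight : (ℚ ⊗[ℤ] A) →ₐ[ℚ] ℚ_[p] ⊗[ℚ] (ℚ ⊗[ℤ] A)).toRingHom.comp
    (Algebra.TensorProduct.includeRight : A →ₐ[ℤ] (ℚ ⊗[ℤ] A)).toRingHom) ?_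
  have h1 : LinearIndependent ℚ_[p] b'' := b''.linearIndependent
  have h2 : (fun j => (((Algebra.TensorProduct.includeRight :
      (ℚ ⊗[ℤ] A) →ₐ[ℚ] ℚ_[p] ⊗[ℚ] (ℚ ⊗[ℤ] A)).toRingHom.comp
    (Algebra.TensorProduct.includeRight : A →ₐ[ℤ] (ℚ ⊗[ℤ] A)).toRingHom)) (b j)) = b'' := by
    funext j
    simp [b'', b']
  rw [h2]
  exact h1

end Fermat.Agent.HeckeGal
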