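import Fermat.Agent.HeckeGal.Burnside
import Fermat.Agent.HeckeGal.Points
import Fermat.Agent.HeckeGal.Approx
import Fermat.Agent.Period.HeckeFinite
import Fermat.Agent.Petersson.Reduced
import Fermat.Prelude.Def_CuspForm_HeckeGaloisRepDatum

/-!
S31 (unramifiedness of the residually irreducible Galois representation over a Hecke algebra) from
S30 (existence and unramifiedness of the Galois representations attached to points).
-/

set_option autoImplicit false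

open Polynomial IsLocalRing

namespace Fermat.Agent.HeckeGal

/-- The statement S30. -/
def S30Statement : Prop :=
    ∀ (p : ℕ) [Fact p.Prime] (N : ℕ) [NeZero N] (S : Finset ℕ)
      (_hpS : p ∈ S) (_hNS : ∀ q : ℕ, q.Prime → q ∣ N → q ∈ S)
      (𝒪' : Type) [CommRing 𝒪'] [IsDomain 𝒪'] [IsDiscreteValuationRing 𝒪']
      [IsAdicComplete (IsLocalRing.maximalIdeal 𝒪') 𝒪'] [Finite (IsLocalRing.ResidueField 𝒪')]
      [CharZero 𝒪'] (_hp𝒪' : (p : 𝒪') ∈ IsLocalRing.maximalIdeal 𝒪')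
      (χ : CuspForm.heckeAlgebra N 2 (↑S : Set ℕ) →+* 𝒪'),
      ∃ (𝒪'' : Type) (_ : CommRing 𝒪'') (_ : IsDomain 𝒪'') (_ : IsDiscreteValuationRing 𝒪'')
        (_ : IsAdicComplete (IsLocalRing.maximalIdeal 𝒪'') 𝒪'')
        (_ : Finite (IsLocalRing.ResidueField 𝒪'')) (_ : CharZero 𝒪'')
        (_ : Algebra 𝒪' 𝒪'') (_ : Module.Finite 𝒪' 𝒪'') (_ : IsLocalHom (algebraMap 𝒪' 𝒪'')),
      Function.Injective (algebraMap 𝒪' 𝒪'') ∧
      ∃ ρ : GaloisRepAdic 𝒪'',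
        (∀ (ℓ : ℕ) (hℓ : ℓ.Prime) (hℓN : ¬ ℓ ∣ N) (hℓS : ℓ ∉ (↑S : Set ℕ)),
          ∀ A : ValuationSubring (AlgebraicClosure ℚ), A.LiesOverPrime ℓ →
            ∀ σ : AlgebraicClosure ℚ ≃ₐ[ℚ] AlgebraicClosure ℚ, A.IsFrobeniusAt σ ℓ →
              LinearMap.charpoly (ρ.ρ σ) =
                X ^ 2 - C (algebraMap 𝒪' 𝒪'' (χ (CuspForm.heckeAlgebra.T hℓ hℓN hℓS))) * X
                  + C ((ℓ : 𝒪''))) ∧
        (∀ q : ℕ, q.Prime → ¬ q ∣ N → q ≠ p → ρ.IsUnramifiedAt q)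

/-- The Galois representation attached to one point, in the form used below. -/
structure PointRep (p N : ℕ) [NeZero N] (S : Finset ℕ)
    (pt : PAdicPoint p (CuspForm.heckeAlgebra N 2 (↑S : Set ℕ))) : Type 1 where
  O : Type
  [commRing : CommRing O]
  [isDomain : IsDomain O]
  [isDVR : IsDiscreteValuationRing O]
  [charZero : CharZero O]
  φ : pt.O →+* O
  isLocalHom : IsLocalHom φ
  injective : Function.Injective φ
  ρ : GaloisRepAdic O
  charpoly_frob : ∀ (ℓ : ℕ) (hℓ : ℓ.Prime) (hℓN : ¬ ℓ ∣ N) (hℓS : ℓ ∉ (↑S : Set ℕ)),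
    ∀ A : ValuationSubring (AlgebraicClosure ℚ), A.LiesOverPrime ℓ →
      ∀ σ : AlgebraicClosure ℚ ≃ₐ[ℚ] AlgebraicClosure ℚ, A.IsFrobeniusAt σ ℓ →
        LinearMap.charpoly (ρ.ρ σ) =
          X ^ 2 - C (φ (pt.χ (CuspForm.heckeAlgebra.T hℓ hℓN hℓS))) * X + C ((ℓ : O))
  unramified : ∀ q : ℕ, q.Prime → ¬ q ∣ N → q ≠ p → ρ.IsUnramifiedAt q

attribute [instance] PointRep.commRing PointRep.isDomain PointRep.isDVR PointRep.charZero

theorem exists_pointRep (h30 : S30Statement) {p N : ℕ} [NeZero N] {S : Finset ℕ} (hp : p.Prime)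
    (hpS : p ∈ S) (hNS : ∀ q : ℕ, q.Prime → q ∣ N → q ∈ S)
    (pt : PAdicPoint p (CuspForm.heckeAlgebra N 2 (↑S : Set ℕ))) :
    Nonempty (PointRep p N S pt) := by
  have : Fact p.Prime := ⟨hp⟩
  obtain ⟨O, i1, i2, i3, -, -, i4, i5, -, i6, hinj, ρ, h1, h2⟩ :=
    h30 p N S hpS hNS pt.O pt.mem_maximalIdeal pt.χ
  exact ⟨{ O := O
           φ := algebraMap pt.O O
           isLocalHom := i6
           injective := hinj
           ρ := ρ
           charpoly_frob := h1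
           unramified := h2 }⟩

variable {p : ℕ} {N : ℕ} [NeZero N] {S : Finset ℕ}
  {𝒪 : Type} [CommRing 𝒪] [IsDomain 𝒪] [IsDiscreteValuationRing 𝒪]
  [IsAdicComplete (IsLocalRing.maximalIdeal 𝒪) 𝒪]
  {θ : CuspForm.heckeAlgebra N 2 (↑S : Set ℕ) →+* IsLocalRing.ResidueField 𝒪}
  {T : Type} [CommRing T] [IsLocalRing T] [IsNoetherianRing T]
  [IsAdicComplete (IsLocalRing.maximalIdeal T) T] [Algebra 𝒪 T] [IsLocalHom (algebraMap 𝒪 T)]
  [Module.Finite 𝒪 T] [Module.Free 𝒪 T]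

theorem isReduced_heckeAlgebra (hNS : ∀ q : ℕ, q.Prime → q ∣ N → q ∈ S) :
    IsReduced (CuspForm.heckeAlgebra N 2 (↑S : Set ℕ)) :=
  Petersson.isReduced_heckeAlgebra hNS

/-- There is a finite family of points of the Hecke algebra such that an element of the Galois
group acting trivially on all the corresponding representations acts trivially on the universal
one. -/
theorem exists_detecting_family (h30 : S30Statement) (hp : p.Prime)
    (hp𝒪 : (p : 𝒪) ∈ IsLocalRing.maximalIdeal 𝒪) (hpS : p ∈ S)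
    (hNS : ∀ q : ℕ, q.Prime → q ∣ N → q ∈ S)
    (H : CuspForm.HeckeGaloisRepDatum N (↑S : Set ℕ) 𝒪 θ T) :
    ∃ (ι : Type) (pt : ι → PAdicPoint p (CuspForm.heckeAlgebra N 2 (↑S : Set ℕ)))
      (R : ∀ i, PointRep p N S (pt i)),
      ∀ σ : AlgebraicClosure ℚ ≃ₐ[ℚ] AlgebraicClosure ℚ, (∀ i, (R i).ρ.ρ σ = 1) →
        H.ρ.ρ σ = 1 := by
  have hfact : Fact p.Prime := ⟨hp⟩
  have hfin := Period.finite_heckeAlgebra N 2 (↑S : Set ℕ)
  have hred := isReduced_heckeAlgebra (N := N) hNS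
  obtain ⟨ι, hι, pt, hpt⟩ :=
    exists_separating_points p (CuspForm.heckeAlgebra N 2 (↑S : Set ℕ))
  have R : ∀ i, PointRep p N S (pt i) := fun i =>
    Classical.choice (exists_pointRep h30 hp hpS hNS (pt i))
  refine ⟨ι, pt, R, fun σ hσ => ?_⟩
  have hNS' : ∀ ℓ : ℕ, ℓ.Prime → ℓ ∉ S → ¬ ℓ ∣ N := fun ℓ hℓ hℓS hℓN => hℓS (hNS ℓ hℓ hℓN)
  have hpT : (p : T) ∈ maximalIdeal T := by
    have h1 : (p : T) = algebraMap 𝒪 T (p : 𝒪) := by rw [map_natCast]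
    rw [h1]
    exact map_nonunit (algebraMap 𝒪 T) _ hp𝒪
  have key : ∀ g : AlgebraicClosure ℚ ≃ₐ[ℚ] AlgebraicClosure ℚ,
      LinearMap.trace T H.ρ.V (H.ρ.ρ (g * σ)) - LinearMap.trace T H.ρ.V (H.ρ.ρ g) = 0 := by
    intro g
    have hmem : LinearMap.trace T H.ρ.V (H.ρ.ρ (g * σ)) - LinearMap.trace T H.ρ.V (H.ρ.ρ g) ∈
        (⨅ n : ℕ, maximalIdeal T ^ n) := by
      rw [Ideal.mem_iInf]
      intro n
      obtain ⟨m, hm⟩ := hpt n
      have hk : ∀ i, ∃ k : ℕ, ∀ x ∈ maximalIdeal (R i).O ^ k, (p : (R i).O) ^ m ∣ x := fun i =>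
        exists_pow_le_span (pow_ne_zero m (Nat.cast_ne_zero.2 hp.ne_zero))
      choose k hk using hk
      have happ := exists_approx S (fun ℓ hℓ hℓS =>
          (CuspForm.heckeAlgebra.T hℓ (hNS' ℓ hℓ hℓS) (by exact_mod_cast hℓS) :
            CuspForm.heckeAlgebra N 2 (↑S : Set ℕ))) H.ρ H.π n
        (fun ℓ hℓ hℓS P hP τ hτ => H.charpoly_frob ℓ hℓ (hNS' ℓ hℓ hℓS) _ P hP τ hτ)
        (fun i => (R i).O) (fun i => (R i).ρ) (fun i => ((R i).φ.comp (pt i).χ)) k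
        (fun i ℓ hℓ hℓS P hP τ hτ => (R i).charpoly_frob ℓ hℓ (hNS' ℓ hℓ hℓS) _ P hP τ hτ)
      obtain ⟨t, ht0, ht⟩ := happ (g * σ)
      obtain ⟨t', ht0', ht'⟩ := happ g
      have hdiv : (p : CuspForm.heckeAlgebra N 2 (↑S : Set ℕ)) ^ n ∣ t' - t := by
        refine hm _ fun i => ?_
        have h1 := Ideal.sub_mem _ (ht i) (ht' i)
        rw [map_mul (R i).ρ.ρ, hσ i, mul_one, sub_sub_sub_cancel_left, ← map_sub] at h1
        have h2 := hk i _ h1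
        have h3 := (R i).isLocalHom
        refine dvd_of_algebraMap_dvd (R i).φ (R i).injective ?_
        rw [map_pow, map_natCast]
        exact h2
      obtain ⟨c, hc⟩ := hdiv
      have h4 : H.π t' - H.π t ∈ maximalIdeal T ^ n := by
        rw [← map_sub, hc, map_mul, map_pow, map_natCast]
        exact Ideal.mul_mem_right _ _ (Ideal.pow_mem_pow hpT n)
      have h5 := Ideal.sub_mem _ (Ideal.sub_mem _ ht0 ht0') h4
      have h6 : LinearMap.trace T H.ρ.V (H.ρ.ρ (g * σ)) - LinearMap.trace T H.ρ.V (H.ρ.ρ g) =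
          (LinearMap.trace T H.ρ.V (H.ρ.ρ (g * σ)) - H.π t) -
            (LinearMap.trace T H.ρ.V (H.ρ.ρ g) - H.π t') - (H.π t' - H.π t) := by ring
      rw [h6]
      exact h5
    rw [Ideal.iInf_pow_eq_bot_of_isLocalRing _ (Ideal.IsPrime.ne_top inferInstance)] at hmem
    exact hmem
  have h7 : H.ρ.ρ σ - 1 = 0 := by
    refine eq_zero_of_trace H.ρ H.residual_absIrr _ fun g => ?_
    rw [mul_sub, mul_one, map_sub, ← map_mul]
    exact key g
  rwa [sub_eq_zero] at h7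

/-- **S31 from S30.** -/
theorem isUnramifiedAt_of_S30 (h30 : S30Statement) (hp : p.Prime)
    (hp𝒪 : (p : 𝒪) ∈ IsLocalRing.maximalIdeal 𝒪) (hpS : p ∈ S)
    (hNS : ∀ q : ℕ, q.Prime → q ∣ N → q ∈ S)
    (H : CuspForm.HeckeGaloisRepDatum N (↑S : Set ℕ) 𝒪 θ T)
    (q : ℕ) (hq : q.Prime) (hqS : q ∉ S) :
    H.ρ.IsUnramifiedAt q := by
  obtain ⟨ι, pt, R, hR⟩ := exists_detecting_family h30 hp hp𝒪 hpS hNS H
  intro P hP σ hσ
  refine hR σ fun i => (R i).unramified q hq (fun h => hqS (hNS q hq h)) ?_ P hP σ hσ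
  rintro rfl
  exact hqS hpS

end Fermat.Agent.HeckeGal
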