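import Mathlib
import Fermat.Prelude.Def_GaloisRep_Adic

/-!
Burnside's theorem and its consequences for residually absolutely irreducible representations
over local rings: the image spans the endomorphism ring, and endomorphisms are detected by traces.
-/

set_option autoImplicit false

open scoped TensorProduct Matrix

namespace Fermat.Agent.HeckeGal

/-- Burnside's theorem for subalgebras. -/
theorem subalgebra_eq_top_of_isSimpleModule {k V : Type*} [Field k] [IsAlgClosed k]
    [AddCommGroup V] [Module k V] [FiniteDimensional k V] (A : Subalgebra k (Module.End k V))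
    [IsSimpleModule A V] : A = ⊤ := by
  classical
  rw [eq_top_iff]
  intro f _
  let F : Module.End (Module.End A V) V :=
    { toFun := f
      map_add' := map_add f
      map_smul' := by
        intro φ v
        obtain ⟨c, hc⟩ := (IsSimpleModule.algebraMap_end_bijective_of_isAlgClosed
          (A := A) (V := V) k).2 φ
        have : ∀ v : V, φ v = c • v := by
          intro v; rw [← hc]; rfl
        simp only [Module.End.smul_def, RingHom.id_apply]
        rw [this, map_smul, this] }
  obtain ⟨r, hr⟩ := jacobson_density (R := A) (M := V) F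
    (Finset.univ.image (Module.finBasis k V))
  have : f = (r : Module.End k V) := by
    refine (Module.finBasis k V).ext fun i => ?_
    exact hr _ (Finset.mem_image_of_mem _ (Finset.mem_univ i))
  rw [this]
  exact r.2

/-- **Burnside's theorem.** -/
theorem span_eq_top_of_irreducible {k V G : Type*} [Field k] [IsAlgClosed k] [AddCommGroup V]
    [Module k V] [FiniteDimensional k V] [Nontrivial V] [Monoid G] (ρ : G →* Module.End k V)
    (h : ∀ W : Submodule k V, (∀ g : G, ∀ x ∈ W, ρ g x ∈ W) → W = ⊥ ∨ W = ⊤) :
    Submodule.span k (Set.range ρ) = ⊤ := by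
  let A : Subalgebra k (Module.End k V) := Algebra.adjoin k (Set.range ρ)
  have hA : Subalgebra.toSubmodule A = Submodule.span k (Set.range ρ) := by
    refine Algebra.adjoin_eq_span_of_subset k ?_
    refine le_trans ?_ Submodule.subset_span
    have h2 : (Set.range ρ : Set (Module.End k V)) = (MonoidHom.mrange ρ : Set _) := rfl
    rw [h2, Submonoid.closure_eq]
  rw [← hA]
  have hsimple : IsSimpleModule A V :=
    { toIsSimpleOrder :=
      { toNontrivial := inferInstance
        eq_bot_or_eq_top := by
          intro W
          have := h (W.restrictScalars k) (fun g x hx =>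
            W.smul_mem (⟨ρ g, Algebra.subset_adjoin ⟨g, rfl⟩⟩ : A) hx)
          rcases this with h1 | h1
          · left
            rwa [Submodule.restrictScalars_eq_bot_iff] at h1
          · right
            rwa [Submodule.restrictScalars_eq_top_iff] at h1 } }
  rw [subalgebra_eq_top_of_isSimpleModule A]
  rfl

/-- An endomorphism over a field with zero trace against a spanning set vanishes. -/
theorem eq_zero_of_trace_mul {R V : Type*} [CommRing R] [AddCommGroup V]
    [Module R V] [Module.Free R V] [Module.Finite R V] (M : Module.End R V)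
    (h : ∀ X : Module.End R V, LinearMap.trace R V (X * M) = 0) : M = 0 := by
  classical
  let b := Module.Free.chooseBasis R V
  have hM : LinearMap.toMatrix b b M = 0 := by
    ext i j
    have h1 := h (Matrix.toLin b b (Matrix.single j i 1))
    rw [LinearMap.trace_eq_matrix_trace R b, LinearMap.toMatrix_mul, LinearMap.toMatrix_toLin] at h1
    simpa [Matrix.trace_single_mul] using h1
  exact (LinearMap.toMatrix b b).map_eq_zero_iff.1 hM

theorem span_matrix_eq_top {n T K G : Type*} [Fintype n] [DecidableEq n] [CommRing T]
    [IsLocalRing T] [Field K] (φ : T →+* K)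
    (hφ : ∀ x ∈ IsLocalRing.maximalIdeal T, φ x = 0) (H : G → Matrix n n T)
    (h : Submodule.span K (Set.range fun g => (H g).map φ) = ⊤) :
    Submodule.span T (Set.range H) = ⊤ := by
  classical
  obtain ⟨g, hg⟩ : ∃ g : n × n → G, LinearIndependent K (fun i => (H (g i)).map φ) := by
    let B := Module.Basis.ofSpan (K := K) (s := Set.range fun g => (H g).map φ) (le_of_eq h.symm)
    have hfin := Module.Finite.finite_basis B
    have := Fintype.ofFinite (((linearIndepOn_empty K (id : Matrix n n K → Matrix n n K)).extend
      (Set.empty_subset (Set.range fun g => (H g).map φ))))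
    have hcard : Module.finrank K (Matrix n n K) = Fintype.card (n × n) := by
      rw [Module.finrank_matrix]
      simp
    rw [Module.finrank_eq_card_basis B] at hcard
    let e := Fintype.equivOfCardEq hcard
    have hB : ∀ i, ∃ g, (H g).map φ = B (e.symm i) := fun i =>
      Module.Basis.ofSpan_subset (le_of_eq h.symm) ⟨_, rfl⟩
    choose g hg using hB
    refine ⟨g, ?_⟩
    have : (fun i => (H (g i)).map φ) = B ∘ e.symm := funext hg
    rw [this]
    exact B.linearIndependent.comp _ e.symm.injective
  let D : Matrix (n × n) (n × n) T := Matrix.of fun i jl => H (g i) jl.1 jl.2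
  have hD : IsUnit (D.map φ) := by
    rw [← Matrix.linearIndependent_rows_iff_isUnit]
    have := hg.map' (LinearEquiv.curry K K n n).symm.toLinearMap (LinearEquiv.ker _)
    exact this
  have hdet : IsUnit D.det := by
    rw [Matrix.isUnit_iff_isUnit_det] at hD
    by_contra hcon
    have h1 := hφ _ ((IsLocalRing.mem_maximalIdeal _).2 hcon)
    rw [RingHom.map_det] at h1
    exact hD.ne_zero h1
  rw [eq_top_iff]
  intro X _
  have hX : X = ∑ i, ((Function.uncurry X) ᵥ* D⁻¹) i • H (g i) := by
    have h1 : (Function.uncurry X) = ((Function.uncurry X) ᵥ* D⁻¹) ᵥ* D := by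
      rw [Matrix.vecMul_vecMul, Matrix.nonsing_inv_mul _ hdet, Matrix.vecMul_one]
    ext a b
    have h2 := congrFun h1 (a, b)
    rw [Matrix.sum_apply]
    change X a b = _ at h2
    simpa [Matrix.vecMul, dotProduct, D] using h2
  rw [hX]
  exact Submodule.sum_mem _ fun i _ => Submodule.smul_mem _ _ (Submodule.subset_span ⟨g i, rfl⟩)

theorem span_comp_eq_top {K V W G : Type*} [Field K] [AddCommMonoid V] [Module K V]
    [AddCommMonoid W] [Module K W] (e : V ≃ₗ[K] W) (f : G → V)
    (h : Submodule.span K (Set.range f) = ⊤) :
    Submodule.span K (Set.range fun g => e (f g)) = ⊤ := by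
  have h3 := congrArg (Submodule.map e.toLinearMap) h
  rw [Submodule.map_span, ← Set.range_comp, Submodule.map_top, LinearEquiv.range] at h3
  exact h3

theorem span_comp_eq_top' {T V W G : Type*} [CommRing T] [AddCommMonoid V] [Module T V]
    [AddCommMonoid W] [Module T W] (e : V ≃ₗ[T] W) (f : G → V)
    (h : Submodule.span T (Set.range fun g => e (f g)) = ⊤) :
    Submodule.span T (Set.range f) = ⊤ := by
  have h3 := congrArg (Submodule.map e.symm.toLinearMap) h
  rw [Submodule.map_span, ← Set.range_comp, Submodule.map_top, LinearEquiv.range] at h3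
  rw [← h3]
  congr 1
  refine congrArg Set.range (funext fun σ => ?_)
  simp

theorem span_map_eq_top {n T k K V G : Type*} [Fintype n] [DecidableEq n] [CommRing T] [Field k]
    [Algebra T k] [Field K] [Algebra k K] [AddCommGroup V] [Module T V]
    (b : Module.Basis n T V) (r : G → Module.End T V)
    (h : Submodule.span K (Set.range fun g => ((r g).baseChange k).baseChange K) = ⊤) :
    Submodule.span K (Set.range fun g =>
      (LinearMap.toMatrix b b (r g)).map ((algebraMap k K).comp (algebraMap T k))) = ⊤ := by
  let b' := Algebra.TensorProduct.basis k b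
  let b'' := Algebra.TensorProduct.basis K b'
  have hmat : ∀ g, LinearMap.toMatrix b'' b'' (((r g).baseChange k).baseChange K) =
      (LinearMap.toMatrix b b (r g)).map ((algebraMap k K).comp (algebraMap T k)) := by
    intro g
    have h1 := LinearMap.toMatrix_baseChange (A := K) ((r g).baseChange k) b' b'
    have h2 := LinearMap.toMatrix_baseChange (A := k) (r g) b b
    have h3 : LinearMap.toMatrix b'' b'' (((r g).baseChange k).baseChange K) =
      (LinearMap.toMatrix b' b' ((r g).baseChange k)).map (algebraMap k K) := h1
    have h4 : LinearMap.toMatrix b' b' ((r g).baseChange k) =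
      (LinearMap.toMatrix b b (r g)).map (algebraMap T k) := h2
    rw [h3, h4, Matrix.map_map]
    rfl
  have h5 := span_comp_eq_top (LinearMap.toMatrix b'' b'') _ h
  rw [← h5]
  congr 1
  exact congrArg Set.range (funext fun g => (hmat g).symm)

/-- If the residual representation is absolutely irreducible, the image of the representation spans
the endomorphism ring. -/
theorem span_range_eq_top {T : Type} [CommRing T] [IsLocalRing T] (ρ : GaloisRepAdic T)
    (h : ρ.residual.IsAbsolutelyIrreducible) : Submodule.span T (Set.range ρ.ρ) = ⊤ := by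
  classical
  let b := Module.finBasis T ρ.V
  have hfr := (ρ.residual.baseChange (AlgebraicClosure (IsLocalRing.ResidueField T))).finrank_eq
  have hnt : Nontrivial
      (ρ.residual.baseChange (AlgebraicClosure (IsLocalRing.ResidueField T))).V :=
    Module.nontrivial_of_finrank_pos (R := AlgebraicClosure (IsLocalRing.ResidueField T))
      (by rw [hfr]; norm_num)
  have h1 := span_eq_top_of_irreducible
    (ρ.residual.baseChange (AlgebraicClosure (IsLocalRing.ResidueField T))).ρ h
  have h2 := span_map_eq_top b (fun σ => ρ.ρ σ) h1
  have h4 := span_matrix_eq_top _ (fun x hx => ?_)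
    (fun σ => LinearMap.toMatrix b b (ρ.ρ σ)) h2
  · exact span_comp_eq_top' (LinearMap.toMatrix b b) _ h4
  · rw [RingHom.comp_apply]
    have : algebraMap T (IsLocalRing.ResidueField T) x = 0 :=
      (IsLocalRing.residue_eq_zero_iff x).2 hx
    rw [this, map_zero]

theorem eq_zero_of_trace {T : Type} [CommRing T] [IsLocalRing T] (ρ : GaloisRepAdic T)
    (h : ρ.residual.IsAbsolutelyIrreducible) (M : Module.End T ρ.V)
    (hM : ∀ σ, LinearMap.trace T ρ.V (ρ.ρ σ * M) = 0) : M = 0 := by
  refine eq_zero_of_trace_mul M fun X => ?_
  have hX : X ∈ Submodule.span T (Set.range ρ.ρ) := by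
    rw [span_range_eq_top ρ h]; trivial
  induction hX using Submodule.span_induction with
  | mem x hx => obtain ⟨σ, rfl⟩ := hx; exact hM σ
  | zero => simp
  | add x y _ _ hx hy => rw [add_mul, map_add, hx, hy, add_zero]
  | smul a x _ hx => rw [smul_mul_assoc, map_smul, hx, smul_zero]

end Fermat.Agent.HeckeGal
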